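import Fermat.Agent.LT.T7.H83.IwLocal
import Fermat.Agent.LT.T7.Level2

/-!
# Row LT, tower T7, asset IW-KIT (helper83), part 2: Iwahori coset systems on `GL₂(𝔸_K)`

OFF-MAIN.  Vocabulary: A0, `T5/Spec.lean` v4 (`T5.InIwahori`, `T5.InIwahoriCoset`),
`T7/Level2.lean` (`cosetOp`, `iwOp`, `IsIwCosetSystem`, `IsIwInv`), helper129's local
embedding `locFin129`.  No holes, nothing assumed.  For the nodes of level 2 of T7
(`SupplyC`: OP-up / OP-down; `SpecUpC`, `SpecDownC`: the operator `𝒰` at the regular place).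

* `inIwahori_iff83`, `inIwahori_one83`, `inIwahori_mul83`, `inIwahori_inv83`,
  `inIwahori_of_trivAtFin83`: the Iwahori condition at `w` is a group condition on the
  component at `w`;
* `exists_isIwCosetSystem83 w : ∃ H, IsIwCosetSystem w H` (`[[ϖ, r], [0, 1]]`, `r` modulo `w`);
* `isIwCosetSystem_complete83`: a coset system meets every class of `I t I / I` exactly once;
* `IsIwInvAt w ψ`: right invariance under the Iwahori subgroup at `w` (elements supported at
  `w`); `isIwInvAt_of_isIwInv83` (from `IsIwInv` of level 2);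
* `cosetOp_indep83`, `iwOp_indep83`: on such functions the operators do not depend on the
  coset system; `cosetOp_isIwInvAt83`, `iwOp_isIwInvAt83`: they preserve the invariance;
* `cosetOp_mul_right83`, `iwOp_mul_right83`: they commute with the right translations by
  elements which are trivial at `w`; `mul_comm_of_local83`.
-/

set_option autoImplicit false
set_option linter.unusedSectionVars false
set_option linter.unusedSimpArgs false
set_option linter.unusedVariables false
set_option linter.style.haveILetI false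

open IsDedekindDomain NumberField IsDedekindDomain.HeightOneSpectrum
open Fermat.Agent.LT.H556 Fermat.Agent.LT.H556.A0 Fermat.Agent.LT.H129

noncomputable section

namespace Fermat.Agent.LT.T7.H83

variable {K : Type} [Field K] [NumberField K] (w : HeightOneSpectrum (𝓞 K))

/-! ## 1. The Iwahori condition -/

theorem inIwahori_iff83 (g : G K) :
    T5.InIwahori w g ↔
      IwL (Valued.v : Valuation (w.adicCompletion K) _) (finCompHom129 w g) := by
  rw [iwL_iff83, ← map_inv]
  rfl

theorem inIwahori_one83 : T5.InIwahori w (1 : G K) := by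
  rw [inIwahori_iff83, map_one]
  exact iwL_one83

theorem inIwahori_mul83 {g h : G K} (hg : T5.InIwahori w g) (hh : T5.InIwahori w h) :
    T5.InIwahori w (g * h) := by
  rw [inIwahori_iff83] at *
  rw [map_mul]
  exact iwL_mul83 hg hh

theorem inIwahori_inv83 {g : G K} (hg : T5.InIwahori w g) : T5.InIwahori w g⁻¹ := by
  rw [inIwahori_iff83] at *
  rw [map_inv]
  exact iwL_inv83 hg

theorem inIwahori_of_trivAtFin83 {g : G K} (hg : TrivAtFin w g) : T5.InIwahori w g := by
  rw [inIwahori_iff83, (trivAtFin_iff129 w g).1 hg]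
  exact iwL_one83

/-- The Iwahori condition depends only on the component at `w`. -/
theorem inIwahori_congr83 {g h : G K} (e : finComp w g = finComp w h) (hg : T5.InIwahori w g) :
    T5.InIwahori w h := by
  rw [inIwahori_iff83] at *
  have : finCompHom129 w h = finCompHom129 w g := Units.ext e.symm
  rw [this]
  exact hg

theorem cosL_of_inIwahoriCoset83 {g : G K} (hg : T5.InIwahoriCoset w 1 g) :
    CosL (Valued.v : Valuation (w.adicCompletion K) _) (finCompHom129 w g) := by
  obtain ⟨k₁, k₂, t, c, hk₁, hk₂, hc, ht, hgk⟩ := hg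
  have e : finCompHom129 w g = finCompHom129 w k₁ * finCompHom129 w t * finCompHom129 w k₂ := by
    rw [← map_mul, ← map_mul]
    exact Units.ext hgk
  rw [e]
  refine cosL_of_mul83 ((inIwahori_iff83 w k₁).1 hk₁) ((inIwahori_iff83 w k₂).1 hk₂) ?_ ht
  simpa using hc

/-! ## 2. The standard system -/

/-- The standard representatives `[[ϖ, r], [0, 1]]`, `r` a representative of a class of
`𝓞 K ⧸ w`. -/
def stdIw83 (π : w.adicCompletion K) (hπ : π ≠ 0) (c : 𝓞 K ⧸ w.asIdeal) : G K :=
  locFin129 w (mkGL129 π (rep129 w c) 0 1 (by simpa using hπ))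

theorem finCompHom_stdIw83 (π : w.adicCompletion K) (hπ : π ≠ 0) (c : 𝓞 K ⧸ w.asIdeal) :
    finCompHom129 w (stdIw83 w π hπ c) = mkGL129 π (rep129 w c) 0 1 (by simpa using hπ) :=
  finCompHom129_locFin129 w _

theorem isLocalAtFin_stdIw83 (π : w.adicCompletion K) (hπ : π ≠ 0) (c : 𝓞 K ⧸ w.asIdeal) :
    IsLocalAtFin w (stdIw83 w π hπ c) :=
  isLocalAtFin_locFin129 w _

theorem inIwahoriCoset_stdIw83 {π : w.adicCompletion K}
    (hπ : Valued.v π = WithZero.exp (-1 : ℤ)) (c : 𝓞 K ⧸ w.asIdeal) :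
    T5.InIwahoriCoset w 1 (stdIw83 w π (unif_ne_zero129 w hπ) c) := by
  have hπ0 := unif_ne_zero129 w hπ
  refine ⟨locFin129 w (mkGL129 1 (rep129 w c) 0 1 (by simp)),
    1, locFin129 w (mkGL129 π 0 0 1 (by simpa using hπ0)), π, ?_, inIwahori_one83 w, ?_, ?_, ?_⟩
  · rw [inIwahori_iff83, finCompHom129_locFin129]
    exact iwL_upper83 (rep129_mem w c)
  · simpa using hπ
  · rw [finComp_locFin129, coe_mkGL129]
  · unfold stdIw83
    rw [mkGL_eq_mul83 hπ0, map_mul, map_mul, map_one]

/-- Every integral element is congruent to a standard representative. -/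
theorem exists_rep83 {x : w.adicCompletion K} (hx : Valued.v x ≤ 1) :
    ∃ c : 𝓞 K ⧸ w.asIdeal, Valued.v (x - rep129 w c) < 1 := by
  obtain ⟨r, hr⟩ := resHom129_surjective K w
    (IsLocalRing.residue (w.adicCompletionIntegers K) ⟨x, hx⟩)
  refine ⟨Ideal.Quotient.mk w.asIdeal r, ?_⟩
  have h1 : Valued.v (x - ((algebraMap (𝓞 K) K r : K) : w.adicCompletion K)) < 1 := by
    have h0 : IsLocalRing.residue (w.adicCompletionIntegers K)
        (⟨x, hx⟩ - algebraMap (𝓞 K) (w.adicCompletionIntegers K) r) = 0 := by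
      rw [map_sub, sub_eq_zero]
      exact hr.symm
    rw [residue_eq_zero_iff_valued129] at h0
    exact h0
  have h2 : Valued.v (((algebraMap (𝓞 K) K r : K) : w.adicCompletion K)
      - rep129 w (Ideal.Quotient.mk w.asIdeal r)) < 1 := by
    have e : ((algebraMap (𝓞 K) K r : K) : w.adicCompletion K)
        - rep129 w (Ideal.Quotient.mk w.asIdeal r)
        = ((algebraMap (𝓞 K) K (r - Quotient.out (Ideal.Quotient.mk w.asIdeal r)) : K) :
            w.adicCompletion K) := by
      unfold rep129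
      rw [map_sub]
      exact (map_sub (algebraMap K (w.adicCompletion K)) _ _).symm
    rw [e, valuedAdicCompletion_eq_valuation', valuation_lt_one_iff_mem]
    rw [← Ideal.Quotient.eq]
    exact (Quotient.out_eq (Ideal.Quotient.mk w.asIdeal r)).symm
  have e3 : x - rep129 w (Ideal.Quotient.mk w.asIdeal r)
      = (x - ((algebraMap (𝓞 K) K r : K) : w.adicCompletion K))
        + (((algebraMap (𝓞 K) K r : K) : w.adicCompletion K)
          - rep129 w (Ideal.Quotient.mk w.asIdeal r)) := by ring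
  rw [e3]
  exact val_add_lt_one83 h1 h2

/-- Every element of `I t I` lies in the class of a standard representative. -/
theorem exists_class83 {π : w.adicCompletion K} (hπ : Valued.v π = WithZero.exp (-1 : ℤ))
    {g : G K} (hg : T5.InIwahoriCoset w 1 g) :
    ∃ c : 𝓞 K ⧸ w.asIdeal,
      T5.InIwahori w ((stdIw83 w π (unif_ne_zero129 w hπ) c)⁻¹ * g) := by
  have hcos := cosL_of_inIwahoriCoset83 w hg
  obtain ⟨h00, h01, h10, h11, hdet⟩ := hcos
  set M : Matrix (Fin 2) (Fin 2) (w.adicCompletion K) :=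
    ((finCompHom129 w g : GL (Fin 2) (w.adicCompletion K)) :
      Matrix (Fin 2) (Fin 2) (w.adicCompletion K)) with hM
  have h11ne : M 1 1 ≠ 0 := by
    intro h
    rw [h, map_zero] at h11
    exact zero_ne_one h11
  have hx : Valued.v (M 0 1 / M 1 1) ≤ 1 := by
    rw [map_div₀, h11, div_one]
    exact h01
  obtain ⟨c, hc⟩ := exists_rep83 w hx
  refine ⟨c, ?_⟩
  rw [inIwahori_iff83, map_mul, map_inv, finCompHom_stdIw83]
  refine iwL_inv_mul_of_cosL83 ⟨h00, h01, h10, h11, hdet⟩ hπ _ (rep129_mem w c) ?_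
  have e : M 0 1 - rep129 w c * M 1 1 = (M 0 1 / M 1 1 - rep129 w c) * M 1 1 := by
    field_simp
  rw [← hM, e, map_mul, h11, mul_one]
  exact hc

/-- The class of a standard representative is unique. -/
theorem class_unique83 {π : w.adicCompletion K} (hπ : Valued.v π = WithZero.exp (-1 : ℤ))
    {g : G K} {c c' : 𝓞 K ⧸ w.asIdeal}
    (h : T5.InIwahori w ((stdIw83 w π (unif_ne_zero129 w hπ) c)⁻¹ * g))
    (h' : T5.InIwahori w ((stdIw83 w π (unif_ne_zero129 w hπ) c')⁻¹ * g)) : c = c' := by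
  by_contra hne
  have hmul := inIwahori_mul83 w h (inIwahori_inv83 w h')
  have e : (stdIw83 w π (unif_ne_zero129 w hπ) c)⁻¹ * g
      * ((stdIw83 w π (unif_ne_zero129 w hπ) c')⁻¹ * g)⁻¹
      = (stdIw83 w π (unif_ne_zero129 w hπ) c)⁻¹ * stdIw83 w π (unif_ne_zero129 w hπ) c' := by
    group
  rw [e, inIwahori_iff83, map_mul, map_inv, finCompHom_stdIw83, finCompHom_stdIw83] at hmul
  have hlt := val_sub_lt_of_iwL83 hπ (unif_ne_zero129 w hπ) hmul
  rw [valued_rep129_sub w hne] at hlt
  exact lt_irrefl _ hlt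

theorem finite_quot83 : Finite (𝓞 K ⧸ w.asIdeal) := by
  apply Nat.finite_of_card_ne_zero
  rw [← Submodule.cardQuot_apply, ← Ideal.absNorm_apply]
  exact ne_of_gt (lt_trans Nat.zero_lt_one (NumberField.HeightOneSpectrum.one_lt_absNorm w))

/-- **Iwahori coset systems exist.** -/
theorem exists_isIwCosetSystem83 : ∃ H : Finset (G K), IsIwCosetSystem w H := by
  classical
  obtain ⟨π, hπ⟩ := exists_unif129 w
  haveI : Finite (𝓞 K ⧸ w.asIdeal) := finite_quot83 w
  letI : Fintype (𝓞 K ⧸ w.asIdeal) := Fintype.ofFinite _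
  have hne : ∀ c c' : 𝓞 K ⧸ w.asIdeal, c ≠ c' →
      ¬ T5.InIwahori w ((stdIw83 w π (unif_ne_zero129 w hπ) c)⁻¹
        * stdIw83 w π (unif_ne_zero129 w hπ) c') := by
    intro c c' hcc hI
    apply hcc
    refine class_unique83 w hπ (g := stdIw83 w π (unif_ne_zero129 w hπ) c') hI ?_
    rw [inv_mul_cancel]
    exact inIwahori_one83 w
  have hinj : Function.Injective (stdIw83 w π (unif_ne_zero129 w hπ)) := by
    intro c c' hcc
    by_contra hne'
    apply hne c c' hne'
    rw [hcc, inv_mul_cancel]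
    exact inIwahori_one83 w
  refine ⟨Finset.univ.image (stdIw83 w π (unif_ne_zero129 w hπ)), ?_, ?_, ?_⟩
  · rw [Finset.card_image_of_injective _ hinj, Finset.card_univ, Ideal.absNorm_apply,
      Submodule.cardQuot_apply, Nat.card_eq_fintype_card]
  · intro h hh
    obtain ⟨c, -, rfl⟩ := Finset.mem_image.mp hh
    exact ⟨isLocalAtFin_stdIw83 w π _ c, inIwahoriCoset_stdIw83 w hπ c⟩
  · intro h hh h' hh' hhh
    obtain ⟨c, -, rfl⟩ := Finset.mem_image.mp hh
    obtain ⟨c', -, rfl⟩ := Finset.mem_image.mp hh'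
    exact hne c c' (fun e => hhh (by rw [e]))

/-- **Completeness of Iwahori coset systems**: every class of `I t I / I` is met exactly
once. -/
theorem isIwCosetSystem_complete83 {H : Finset (G K)} (hH : IsIwCosetSystem w H) {g : G K}
    (hg : T5.InIwahoriCoset w 1 g) :
    ∃ h ∈ H, T5.InIwahori w (h⁻¹ * g) ∧ ∀ h' ∈ H, T5.InIwahori w (h'⁻¹ * g) → h' = h := by
  classical
  obtain ⟨π, hπ⟩ := exists_unif129 w
  haveI : Finite (𝓞 K ⧸ w.asIdeal) := finite_quot83 w
  letI : Fintype (𝓞 K ⧸ w.asIdeal) := Fintype.ofFinite _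
  obtain ⟨hcard, hprop, hdist⟩ := hH
  let ι : {h // h ∈ H} → 𝓞 K ⧸ w.asIdeal := fun h =>
    (exists_class83 w hπ (hprop h.1 h.2).2).choose
  have hι : ∀ h : {h // h ∈ H},
      T5.InIwahori w ((stdIw83 w π (unif_ne_zero129 w hπ) (ι h))⁻¹ * h.1) := fun h =>
    (exists_class83 w hπ (hprop h.1 h.2).2).choose_spec
  have key : ∀ (c : 𝓞 K ⧸ w.asIdeal) (a b : G K),
      T5.InIwahori w ((stdIw83 w π (unif_ne_zero129 w hπ) c)⁻¹ * a) →
      T5.InIwahori w ((stdIw83 w π (unif_ne_zero129 w hπ) c)⁻¹ * b) →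
      T5.InIwahori w (a⁻¹ * b) := by
    intro c a b ha hb
    have := inIwahori_mul83 w (inIwahori_inv83 w ha) hb
    have e : ((stdIw83 w π (unif_ne_zero129 w hπ) c)⁻¹ * a)⁻¹
        * ((stdIw83 w π (unif_ne_zero129 w hπ) c)⁻¹ * b) = a⁻¹ * b := by group
    rwa [e] at this
  have hinj : Function.Injective ι := by
    intro h h' e
    by_contra hcon
    have hne' : h.1 ≠ h'.1 := fun hh => hcon (Subtype.ext hh)
    refine hdist h.1 h.2 h'.1 h'.2 hne' (key (ι h) _ _ (hι h) ?_)
    rw [e]
    exact hι h'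
  have hcard' : Fintype.card {h // h ∈ H} = Fintype.card (𝓞 K ⧸ w.asIdeal) := by
    rw [Fintype.card_coe, hcard, Ideal.absNorm_apply, Submodule.cardQuot_apply,
      Nat.card_eq_fintype_card]
  have hbij : Function.Bijective ι :=
    (Fintype.bijective_iff_injective_and_card ι).mpr ⟨hinj, hcard'⟩
  obtain ⟨c, hc⟩ := exists_class83 w hπ hg
  obtain ⟨⟨h, hhH⟩, hh⟩ := hbij.2 c
  have hhg : T5.InIwahori w (h⁻¹ * g) := by
    refine key c _ _ ?_ hc
    rw [← hh]
    exact hι ⟨h, hhH⟩
  refine ⟨h, hhH, hhg, ?_⟩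
  intro h' hh'H hh'
  by_contra hcon
  apply hdist h' hh'H h hhH hcon
  have := inIwahori_mul83 w hh' (inIwahori_inv83 w hhg)
  have e : h'⁻¹ * g * (h⁻¹ * g)⁻¹ = h'⁻¹ * h := by group
  rwa [e] at this

/-! ## 3. The operators on Iwahori-invariant functions -/

/-- `ψ` is right invariant under the Iwahori subgroup at `w` (elements supported at `w`). -/
def IsIwInvAt (ψ : G K → ℂ) : Prop :=
  ∀ u : G K, IsLocalAtFin w u → T5.InIwahori w u → ∀ x : G K, ψ (x * u) = ψ x

/-- From the invariance of level 2 along an orbit. -/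
theorem isIwInvAt_of_isIwInv83 {l : ℕ} {o : ℕ → HeightOneSpectrum (𝓞 K)} {ψ : G K → ℂ}
    (hψ : IsIwInv l o ψ) {j : ℕ} (hj : j < l) : IsIwInvAt (o j) ψ := by
  intro u hu hI x
  refine hψ u hu.1 (fun v hv => hu.2 v (hv j hj)) (fun i hi => ?_) x
  by_cases e : o i = o j
  · rw [e]; exact hI
  · exact inIwahori_of_trivAtFin83 (o i) (hu.2 (o i) e)

open scoped Classical in
/-- A coset system is mapped bijectively onto any other one, modulo `I` on the right. -/
theorem exists_matching83 {H H' : Finset (G K)} (hH : IsIwCosetSystem w H)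
    (hH' : IsIwCosetSystem w H') :
    ∃ σ : G K → G K, (∀ h ∈ H, σ h ∈ H' ∧ T5.InIwahori w ((σ h)⁻¹ * h)) ∧
      Set.InjOn σ (H : Set (G K)) ∧ H.image σ = H' := by
  classical
  have hex : ∀ h : G K, ∃ h' : G K, h ∈ H → h' ∈ H' ∧ T5.InIwahori w (h'⁻¹ * h) := by
    intro h
    by_cases hh : h ∈ H
    · obtain ⟨h', hh', hI, -⟩ := isIwCosetSystem_complete83 w hH' (hH.2.1 h hh).2
      exact ⟨h', fun _ => ⟨hh', hI⟩⟩
    · exact ⟨1, fun h0 => (hh h0).elim⟩
  choose σ hσ using hex
  have hinj : Set.InjOn σ (H : Set (G K)) := by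
    intro a ha b hb e
    by_contra hne
    apply hH.2.2 a ha b hb hne
    have h1 := (hσ a ha).2
    have h2 := (hσ b hb).2
    rw [← e] at h2
    have := inIwahori_mul83 w (inIwahori_inv83 w h1) h2
    have e' : ((σ a)⁻¹ * a)⁻¹ * ((σ a)⁻¹ * b) = a⁻¹ * b := by group
    rwa [e'] at this
  refine ⟨σ, hσ, hinj, ?_⟩
  apply Finset.eq_of_subset_of_card_le
  · intro x hx
    obtain ⟨h, hh, rfl⟩ := Finset.mem_image.mp hx
    exact (hσ h hh).1
  · rw [Finset.card_image_of_injOn hinj, hH.1, hH'.1]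

/-- **Independence of the coset system.** -/
theorem cosetOp_indep83 {H H' : Finset (G K)} (hH : IsIwCosetSystem w H)
    (hH' : IsIwCosetSystem w H') {ψ : G K → ℂ} (hψ : IsIwInvAt w ψ) (x : G K) :
    cosetOp H ψ x = cosetOp H' ψ x := by
  classical
  obtain ⟨σ, hσ, hinj, himg⟩ := exists_matching83 w hH hH'
  unfold cosetOp
  rw [← himg, Finset.sum_image hinj]
  refine Finset.sum_congr rfl fun h hh => ?_
  have hloc : IsLocalAtFin w ((σ h)⁻¹ * h) :=
    isLocalAtFin_mul129 (isLocalAtFin_inv129 (hH'.2.1 _ (hσ h hh).1).1) (hH.2.1 h hh).1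
  have := hψ _ hloc (hσ h hh).2 (x * σ h)
  rw [← this]
  congr 1
  group

theorem iwOp_indep83 {H H' : Finset (G K)} (hH : IsIwCosetSystem w H)
    (hH' : IsIwCosetSystem w H') {ψ : G K → ℂ} (hψ : IsIwInvAt w ψ) (x : G K) :
    iwOp w H ψ x = iwOp w H' ψ x := by
  have := cosetOp_indep83 w hH hH' hψ x
  unfold cosetOp at this
  unfold iwOp
  rw [this]

/-- The left translate of a coset system by an element of the Iwahori subgroup supported at
`w` is a coset system. -/
theorem isIwCosetSystem_image83 {H : Finset (G K)} (hH : IsIwCosetSystem w H) {u : G K}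
    (hu : IsLocalAtFin w u) (hI : T5.InIwahori w u) [DecidableEq (G K)] :
    IsIwCosetSystem w (H.image fun h => u * h) := by
  have hinj : Function.Injective fun h : G K => u * h := mul_right_injective u
  refine ⟨?_, ?_, ?_⟩
  · rw [Finset.card_image_of_injective _ hinj, hH.1]
  · intro h hh
    obtain ⟨h₀, hh₀, rfl⟩ := Finset.mem_image.mp hh
    refine ⟨isLocalAtFin_mul129 hu (hH.2.1 h₀ hh₀).1, ?_⟩
    obtain ⟨k₁, k₂, t, c, hk₁, hk₂, hc, ht, hg⟩ := (hH.2.1 h₀ hh₀).2
    refine ⟨u * k₁, k₂, t, c, inIwahori_mul83 w hI hk₁, hk₂, hc, ht, ?_⟩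
    have e1 : finCompHom129 w (u * h₀) = finCompHom129 w (u * k₁ * t * k₂) := by
      have e0 : finCompHom129 w h₀ = finCompHom129 w (k₁ * t * k₂) := Units.ext hg
      rw [map_mul, e0, ← map_mul]
      congr 1
      group
    exact congrArg (fun y : GL (Fin 2) (w.adicCompletion K) =>
      (y : Matrix (Fin 2) (Fin 2) (w.adicCompletion K))) e1
  · intro h hh h' hh' hne
    obtain ⟨h₀, hh₀, rfl⟩ := Finset.mem_image.mp hh
    obtain ⟨h₁, hh₁, rfl⟩ := Finset.mem_image.mp hh'
    have e : (u * h₀)⁻¹ * (u * h₁) = h₀⁻¹ * h₁ := by group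
    rw [e]
    exact hH.2.2 h₀ hh₀ h₁ hh₁ (fun e' => hne (by rw [e']))

/-- **The operators preserve the invariance under the Iwahori subgroup.** -/
theorem cosetOp_isIwInvAt83 {H : Finset (G K)} (hH : IsIwCosetSystem w H) {ψ : G K → ℂ}
    (hψ : IsIwInvAt w ψ) : IsIwInvAt w (cosetOp H ψ) := by
  classical
  intro u hu hI x
  have h1 : cosetOp H ψ (x * u) = cosetOp (H.image fun h => u * h) ψ x := by
    unfold cosetOp
    rw [Finset.sum_image (fun a _ b _ e => mul_right_injective u e)]
    refine Finset.sum_congr rfl fun h _ => ?_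
    rw [mul_assoc]
  rw [h1]
  exact cosetOp_indep83 w (isIwCosetSystem_image83 w hH hu hI) hH hψ x

theorem iwOp_isIwInvAt83 {H : Finset (G K)} (hH : IsIwCosetSystem w H) {ψ : G K → ℂ}
    (hψ : IsIwInvAt w ψ) : IsIwInvAt w (iwOp w H ψ) := by
  intro u hu hI x
  have := cosetOp_isIwInvAt83 w hH hψ u hu hI x
  unfold cosetOp at this
  unfold iwOp
  rw [this]

theorem iwOp_iterate_isIwInvAt83 {H : Finset (G K)} (hH : IsIwCosetSystem w H) {ψ : G K → ℂ}
    (hψ : IsIwInvAt w ψ) (m : ℕ) : IsIwInvAt w ((iwOp w H)^[m] ψ) := by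
  induction m with
  | zero => simpa using hψ
  | succ m ih =>
    rw [Function.iterate_succ_apply']
    exact iwOp_isIwInvAt83 w hH ih

/-- The iterates do not depend on the coset system. -/
theorem iwOp_iterate_indep83 {H H' : Finset (G K)} (hH : IsIwCosetSystem w H)
    (hH' : IsIwCosetSystem w H') {ψ : G K → ℂ} (hψ : IsIwInvAt w ψ) (m : ℕ) :
    (iwOp w H)^[m] ψ = (iwOp w H')^[m] ψ := by
  induction m with
  | zero => rfl
  | succ m ih =>
    rw [Function.iterate_succ_apply', Function.iterate_succ_apply', ← ih]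
    funext x
    exact iwOp_indep83 w hH hH' (iwOp_iterate_isIwInvAt83 w hH hψ m) x

/-! ## 4. Commutation with the translations away from `w` -/

/-- An element supported at `w` commutes with an element which is trivial at `w`. -/
theorem mul_comm_of_local83 {h u : G K} (hh : IsLocalAtFin w h) (hu : TrivAtFin w u) :
    h * u = u * h := by
  rw [isLocalAtFin_iff129] at hh
  rw [trivAtFin_iff129] at hu
  apply G_ext129
  · intro w'
    rw [map_mul, map_mul, hh.1 w', one_mul, mul_one]
  · intro v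
    by_cases e : v = w
    · subst e
      rw [map_mul, map_mul, hu, one_mul, mul_one]
    · rw [map_mul, map_mul, hh.2 v e, one_mul, mul_one]

theorem cosetOp_mul_right83 {H : Finset (G K)} (hH : ∀ h ∈ H, IsLocalAtFin w h) {u : G K}
    (hu : TrivAtFin w u) (ψ : G K → ℂ) (x : G K) :
    cosetOp H ψ (x * u) = cosetOp H (fun y => ψ (y * u)) x := by
  unfold cosetOp
  refine Finset.sum_congr rfl fun h hh => ?_
  show ψ (x * u * h) = ψ (x * h * u)
  rw [mul_assoc, ← mul_comm_of_local83 w (hH h hh) hu, mul_assoc]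

theorem iwOp_mul_right83 {H : Finset (G K)} (hH : ∀ h ∈ H, IsLocalAtFin w h) {u : G K}
    (hu : TrivAtFin w u) (ψ : G K → ℂ) (x : G K) :
    iwOp w H ψ (x * u) = iwOp w H (fun y => ψ (y * u)) x := by
  have := cosetOp_mul_right83 w hH hu ψ x
  unfold cosetOp at this
  unfold iwOp
  rw [this]

end Fermat.Agent.LT.T7.H83

end
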