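import Fermat.Agent.LT.T7.H311.EkProdUp
import Fermat.Agent.LT.T7.H893.SupplyGeoSpec

/-!
# Row LT, tower T7, leaf T7.L2.1.F1 in the OPERATOR FORM `H893.EkProdUpOpC` (helper83, registry
# row 2249)

OFF-MAIN.  **`ekProdUpOpC83 K K' : T7.H893.EkProdUpOpC K K'`**, VERBATIM vs
`LT/T7/H893/SupplyGeoSpec.lean` (helper893, fourth cut), UNCONDITIONAL.  No holes, nothing
assumed.

The proof is the proof of helper311 (`ekProdUpC311`, `LT/T7/H311/EkProdUp.lean`, vendored
byte-identical), which uses the operator fields of the pre-data only, repeated for `IsL2PreOp`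
(as `H893.ekProdDownOpC_closed893` for the leaf F2): the second factor
`lsum Hg (regL (o 0) z' H' k m φ₂)` is an Eisenstein-killing test function
(`isEKTest_lsum_regL311`), the product is a test function (`ConvTestC`, helper872).
Also `ekProdUpC83 : H893.EkProdUpC K K'` is NOT repeated here (it is `ekProdUpC311`).
-/

set_option autoImplicit false
set_option linter.unusedSectionVars false
set_option linter.unusedVariables false

open IsDedekindDomain NumberField MeasureTheory IsDedekindDomain.HeightOneSpectrum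
open Fermat.Agent.LT.H556 Fermat.Agent.LT.H556.A0 Fermat.Agent.LT.H129

noncomputable section

namespace Fermat.Agent.LT.T7.H83

open Fermat.Agent.LT Fermat.Agent.LT.T7 Fermat.Agent.LT.T7.H893 Fermat.Agent.LT.T7.H340
open Fermat.Agent.LT.T7.H311

attribute [local instance] Fermat.Agent.LT.T5.instMeasurableSpaceG

/-- **T7.L2.1.F1 EKPROD-UP in the operator form**, verbatim. -/
theorem ekProdUpOpC83 (K K' : Type) [Field K] [NumberField K] [Field K'] [NumberField K']
    [Algebra K K'] : H893.EkProdUpOpC K K' := by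
  intro ℓ Φ B hB g hg E hE X k m hX
  have hF : IsFrame5 B.R' := hB.frame'
  have hℓ : 0 < ℓ := hB.deg ▸ hB.cyc.pos
  have hne : upI (K' := K') E.𝔫 ≠ ⊥ := by
    intro h0
    apply hE.level_ne
    have h1 : Ideal.map (algebraMap (𝓞 K) (𝓞 K')) E.𝔫 = ⊥ := h0
    rwa [Ideal.map_eq_bot_iff_of_injective
      (FaithfulSMul.algebraMap_injective (𝓞 K) (𝓞 K'))] at h1
  have hT : H32.ConvTestC32 (upI (K' := K') E.𝔫) B.R'.μ := fun a b ha hb =>
    H872.isTestFn_conv872 hF.frame.haar hne ha hb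
  have h1 : H32.IsEKTest32 (upI (K' := K') E.𝔫) B.R'.μ (E.Φ₁ X) :=
    ⟨hE.up1_test X hX, (hE.up1_ek X hX).1, (hE.up1_ek X hX).2⟩
  have hpre : IsPre311 (upI (K' := K') E.𝔫) B.R'.μ E.φ₂ :=
    isPre_of_test311 hE.up2_test hE.up2_ek.1 hE.up2_ek.2
  have hw0 : (B.o 0).asIdeal ∣ B.𝔑₀ := (hB.mem_S' (B.o 0)).1 (hB.orbit_level 0)
  have hL : IsLInv311 B.𝔑₀ (B.o 0) E.φ₂ := by
    refine ⟨fun x hx y => (hE.up2_inv.1 x hx y).1, fun h hl hI y => ?_⟩
    refine (hE.up2_inv.2 h hl.1 (fun v hv => hl.2 v (hv 0 hℓ)) (fun j _ => ?_) y).1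
    by_cases hj : B.o j = B.o 0
    · rw [hj]
      exact hI
    · rw [inIwahori_iff340, (trivAtFin_iff129 _ _).1 (hl.2 (B.o j) hj)]
      exact isIwG340_one
  have h2 := isEKTest_lsum_regL311 hF.frame hE.level_g (hw0) hpre hL hE.sys' hE.unif' hg.1
    hE.sysg k m
  exact H32.isEKProd_mk32 hT h1 h2

/-- Type check against the frozen Prop. -/
example (K K' : Type) [Field K] [NumberField K] [Field K'] [NumberField K'] [Algebra K K'] :
    Fermat.Agent.LT.T7.H893.EkProdUpOpC K K' :=
  ekProdUpOpC83 K K'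

end Fermat.Agent.LT.T7.H83

end
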