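import Fermat.Agent.LT.H129.HeckeExists

/-!
# Row LT, tower T7, asset IW-KIT (helper83), part 1: the Iwahori subgroup of `GL₂(F)` and the
# double coset `I diag(ϖ, 1) I`, local algebra

OFF-MAIN.  `F` a field with a valuation `val : Valuation F ℤᵐ⁰`.  No holes, nothing assumed.

* `IwL val x`  : `x ∈ I` (integral entries, `val (det x) = 1`, `val (x 1 0) < 1`);
  group laws `iwL_one83`, `iwL_mul83`, `iwL_inv83`; `iwL_iff83` (integral, integral inverse).
* `CosL val x` : the shape of the elements of `I diag(c, 1) I`, `val c = exp (-1)`;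
  `cosL_of_mul83` (`I t I ⊆ CosL`), `iwL_inv_mul_of_cosL83` (`CosL ⊆ ⋃_r [[ϖ, r], [0, 1]] I`),
  `val_sub_lt_of_iwL83` (the classes of `[[ϖ, r], [0, 1]]`, `r` modulo `ϖ`, are distinct).
-/

set_option autoImplicit false
set_option linter.unusedSectionVars false
set_option linter.unusedSimpArgs false
set_option linter.unusedVariables false

open Matrix
open Fermat.Agent.LT.H129

noncomputable section

namespace Fermat.Agent.LT.T7.H83

variable {F : Type*} [Field F] (val : Valuation F (WithZero (Multiplicative ℤ)))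

/-- `x` lies in the Iwahori subgroup: integral entries, unit determinant, lower left entry in the
maximal ideal. -/
def IwL (x : GL (Fin 2) F) : Prop :=
  (∀ i j, val ((x : Matrix (Fin 2) (Fin 2) F) i j) ≤ 1) ∧
    val (x : Matrix (Fin 2) (Fin 2) F).det = 1 ∧ val ((x : Matrix (Fin 2) (Fin 2) F) 1 0) < 1

/-- The shape of the elements of `I diag(c, 1) I`, `c` a uniformiser. -/
def CosL (x : GL (Fin 2) F) : Prop :=
  val ((x : Matrix (Fin 2) (Fin 2) F) 0 0) < 1 ∧ val ((x : Matrix (Fin 2) (Fin 2) F) 0 1) ≤ 1 ∧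
    val ((x : Matrix (Fin 2) (Fin 2) F) 1 0) < 1 ∧ val ((x : Matrix (Fin 2) (Fin 2) F) 1 1) = 1 ∧
    val (x : Matrix (Fin 2) (Fin 2) F).det = WithZero.exp (-1 : ℤ)

variable {val}

theorem val_add_le_one83 {a b : F} (ha : val a ≤ 1) (hb : val b ≤ 1) : val (a + b) ≤ 1 :=
  le_trans (val.map_add a b) (max_le ha hb)

theorem val_mul_le_one83 {a b : F} (ha : val a ≤ 1) (hb : val b ≤ 1) : val (a * b) ≤ 1 := by
  rw [map_mul]
  exact mul_le_one' ha hb

theorem val_mul_lt_one_left83 {a b : F} (ha : val a < 1) (hb : val b ≤ 1) : val (a * b) < 1 := by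
  rw [map_mul]
  exact lt_of_le_of_lt (mul_le_of_le_one_right' hb) ha

theorem val_mul_lt_one_right83 {a b : F} (ha : val a ≤ 1) (hb : val b < 1) : val (a * b) < 1 := by
  rw [mul_comm]
  exact val_mul_lt_one_left83 hb ha

theorem val_add_lt_one83 {a b : F} (ha : val a < 1) (hb : val b < 1) : val (a + b) < 1 :=
  lt_of_le_of_lt (val.map_add a b) (max_lt ha hb)

theorem val_sub_lt_one83 {a b : F} (ha : val a < 1) (hb : val b < 1) : val (a - b) < 1 := by
  rw [sub_eq_add_neg]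
  exact val_add_lt_one83 ha (by rwa [Valuation.map_neg])

theorem val_sub_le_one83 {a b : F} (ha : val a ≤ 1) (hb : val b ≤ 1) : val (a - b) ≤ 1 := by
  rw [sub_eq_add_neg]
  exact val_add_le_one83 ha (by rwa [Valuation.map_neg])

/-- `val (a + b) = 1` if `val a < 1` and `val b = 1`. -/
theorem val_add_eq_one83 {a b : F} (ha : val a < 1) (hb : val b = 1) : val (a + b) = 1 := by
  have h : val a < val b := by rwa [hb]
  rw [Valuation.map_add_eq_of_lt_right val h, hb]

/-- Two integral elements with a product of valuation `1` have valuation `1`. -/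
theorem val_eq_one_of_mul83 {a b : F} (ha : val a ≤ 1) (hb : val b ≤ 1) (h : val (a * b) = 1) :
    val a = 1 ∧ val b = 1 := by
  rw [map_mul] at h
  constructor
  · refine le_antisymm ha ?_
    calc (1 : WithZero (Multiplicative ℤ)) = val a * val b := h.symm
      _ ≤ val a * 1 := mul_le_mul' le_rfl hb
      _ = val a := mul_one _
  · refine le_antisymm hb ?_
    calc (1 : WithZero (Multiplicative ℤ)) = val a * val b := h.symm
      _ ≤ 1 * val b := mul_le_mul' ha le_rfl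
      _ = val b := one_mul _

/-- The diagonal entries of an element of the Iwahori subgroup are units. -/
theorem IwL.diag83 {x : GL (Fin 2) F} (hx : IwL val x) :
    val ((x : Matrix (Fin 2) (Fin 2) F) 0 0) = 1 ∧ val ((x : Matrix (Fin 2) (Fin 2) F) 1 1) = 1 := by
  obtain ⟨hint, hdet, hlow⟩ := hx
  rw [Matrix.det_fin_two] at hdet
  have h2 : val ((x : Matrix (Fin 2) (Fin 2) F) 0 1 * (x : Matrix (Fin 2) (Fin 2) F) 1 0) < 1 :=
    val_mul_lt_one_right83 (hint 0 1) hlow
  have h3 : val ((x : Matrix (Fin 2) (Fin 2) F) 0 0 * (x : Matrix (Fin 2) (Fin 2) F) 1 1) = 1 := by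
    have e : (x : Matrix (Fin 2) (Fin 2) F) 0 0 * (x : Matrix (Fin 2) (Fin 2) F) 1 1
        = (x : Matrix (Fin 2) (Fin 2) F) 0 1 * (x : Matrix (Fin 2) (Fin 2) F) 1 0
          + ((x : Matrix (Fin 2) (Fin 2) F) 0 0 * (x : Matrix (Fin 2) (Fin 2) F) 1 1
            - (x : Matrix (Fin 2) (Fin 2) F) 0 1 * (x : Matrix (Fin 2) (Fin 2) F) 1 0) := by ring
    rw [e]
    exact val_add_eq_one83 h2 hdet
  exact val_eq_one_of_mul83 (hint 0 0) (hint 1 1) h3

theorem iwL_one83 : IwL val (1 : GL (Fin 2) F) := by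
  refine ⟨fun i j => ?_, by simp, by simp⟩
  fin_cases i <;> fin_cases j <;> simp

theorem iwL_mul83 {x y : GL (Fin 2) F} (hx : IwL val x) (hy : IwL val y) : IwL val (x * y) := by
  obtain ⟨hxi, hxd, hxl⟩ := hx
  obtain ⟨hyi, hyd, hyl⟩ := hy
  refine ⟨fun i j => ?_, ?_, ?_⟩
  · rw [Matrix.GeneralLinearGroup.coe_mul, Matrix.mul_apply, Fin.sum_univ_two]
    exact val_add_le_one83 (val_mul_le_one83 (hxi _ _) (hyi _ _))
      (val_mul_le_one83 (hxi _ _) (hyi _ _))
  · rw [Matrix.GeneralLinearGroup.coe_mul, Matrix.det_mul, map_mul, hxd, hyd, one_mul]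
  · rw [Matrix.GeneralLinearGroup.coe_mul, Matrix.mul_apply, Fin.sum_univ_two]
    exact val_add_lt_one83 (val_mul_lt_one_left83 hxl (hyi _ _))
      (val_mul_lt_one_right83 (hxi _ _) hyl)

theorem iwL_inv83 {x : GL (Fin 2) F} (hx : IwL val x) : IwL val x⁻¹ := by
  obtain ⟨hxi, hxd, hxl⟩ := hx
  have hent : ∀ i j, val (((x⁻¹ : GL (Fin 2) F) : Matrix (Fin 2) (Fin 2) F) i j)
      = val ((Matrix.adjugate (x : Matrix (Fin 2) (Fin 2) F)) i j) := by
    intro i j
    rw [inv_apply129, map_div₀, hxd, div_one]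
  refine ⟨fun i j => ?_, ?_, ?_⟩
  · rw [hent, Matrix.adjugate_fin_two]
    fin_cases i <;> fin_cases j
    · simpa using hxi 1 1
    · simpa using hxi 0 1
    · simpa using hxi 1 0
    · simpa using hxi 0 0
  · rw [Matrix.coe_units_inv, Matrix.det_nonsing_inv, Ring.inverse_eq_inv', map_inv₀, hxd, inv_one]
  · rw [hent, Matrix.adjugate_fin_two]
    simpa using hxl

/-- The Iwahori subgroup in the form "integral with integral inverse". -/
theorem iwL_iff83 (x : GL (Fin 2) F) :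
    IwL val x ↔ (∀ i j, val ((x : Matrix (Fin 2) (Fin 2) F) i j) ≤ 1) ∧
      (∀ i j, val (((x⁻¹ : GL (Fin 2) F) : Matrix (Fin 2) (Fin 2) F) i j) ≤ 1) ∧
      val ((x : Matrix (Fin 2) (Fin 2) F) 1 0) < 1 := by
  constructor
  · intro h
    exact ⟨h.1, (iwL_inv83 h).1, h.2.2⟩
  · rintro ⟨h1, h2, h3⟩
    refine ⟨h1, ?_, h3⟩
    have hd1 : val (x : Matrix (Fin 2) (Fin 2) F).det ≤ 1 := by
      rw [Matrix.det_fin_two]
      exact val_sub_le_one83 (val_mul_le_one83 (h1 _ _) (h1 _ _))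
        (val_mul_le_one83 (h1 _ _) (h1 _ _))
    have hd2 : val ((x⁻¹ : GL (Fin 2) F) : Matrix (Fin 2) (Fin 2) F).det ≤ 1 := by
      rw [Matrix.det_fin_two]
      exact val_sub_le_one83 (val_mul_le_one83 (h2 _ _) (h2 _ _))
        (val_mul_le_one83 (h2 _ _) (h2 _ _))
    have hprod : val ((x : Matrix (Fin 2) (Fin 2) F).det
        * ((x⁻¹ : GL (Fin 2) F) : Matrix (Fin 2) (Fin 2) F).det) = 1 := by
      rw [← Matrix.det_mul, ← Matrix.GeneralLinearGroup.coe_mul, mul_inv_cancel]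
      simp
    exact (val_eq_one_of_mul83 hd1 hd2 hprod).1

/-- `I diag(c, 1) I` has the shape `CosL`. -/
theorem cosL_of_mul83 {a b t : GL (Fin 2) F} {c : F} (ha : IwL val a) (hb : IwL val b)
    (hc : val c = WithZero.exp (-1 : ℤ)) (ht : (t : Matrix (Fin 2) (Fin 2) F) = !![c, 0; 0, 1]) :
    CosL val (a * t * b) := by
  have hc1 : val c < 1 := by
    rw [hc, ← WithZero.exp_zero, WithZero.exp_lt_exp]
    norm_num
  obtain ⟨ha0, ha1⟩ := ha.diag83
  obtain ⟨hb0, hb1⟩ := hb.diag83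
  obtain ⟨hai, had, hal⟩ := ha
  obtain ⟨hbi, hbd, hbl⟩ := hb
  have hent : ∀ i j, ((a * t * b : GL (Fin 2) F) : Matrix (Fin 2) (Fin 2) F) i j
      = (a : Matrix (Fin 2) (Fin 2) F) i 0 * c * (b : Matrix (Fin 2) (Fin 2) F) 0 j
        + (a : Matrix (Fin 2) (Fin 2) F) i 1 * (b : Matrix (Fin 2) (Fin 2) F) 1 j := by
    intro i j
    rw [Matrix.GeneralLinearGroup.coe_mul, Matrix.GeneralLinearGroup.coe_mul, ht]
    simp [Matrix.mul_apply, Fin.sum_univ_two]
  have hsmall : ∀ i j, val ((a : Matrix (Fin 2) (Fin 2) F) i 0 * c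
      * (b : Matrix (Fin 2) (Fin 2) F) 0 j) < 1 := fun i j =>
    val_mul_lt_one_left83 (val_mul_lt_one_right83 (hai _ _) hc1) (hbi _ _)
  refine ⟨?_, ?_, ?_, ?_, ?_⟩
  · rw [hent]
    exact val_add_lt_one83 (hsmall _ _) (val_mul_lt_one_right83 (hai _ _) hbl)
  · rw [hent]
    exact val_add_le_one83 (hsmall _ _).le (val_mul_le_one83 (hai _ _) (hbi _ _))
  · rw [hent]
    exact val_add_lt_one83 (hsmall _ _) (val_mul_lt_one_right83 (hai _ _) hbl)
  · rw [hent]
    refine val_add_eq_one83 (hsmall _ _) ?_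
    rw [map_mul, ha1, hb1, one_mul]
  · rw [Matrix.GeneralLinearGroup.coe_mul, Matrix.GeneralLinearGroup.coe_mul, Matrix.det_mul,
      Matrix.det_mul, ht, Matrix.det_fin_two_of, map_mul, map_mul, had, hbd]
    simpa using hc

/-- Discreteness: `val x < 1` implies `val x ≤ val ϖ`. -/
theorem val_div_le_one83 {π x : F} (hπ : val π = WithZero.exp (-1 : ℤ)) (hx : val x < 1) :
    val (x / π) ≤ 1 := by
  have hπ0 : val π ≠ 0 := by
    rw [hπ]; exact WithZero.exp_ne_zero
  rw [map_div₀, div_le_iff₀ (zero_lt_iff.2 hπ0), one_mul, hπ]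
  exact withZero_le_exp_neg_one129 hx

/-- `CosL ⊆ ⋃_r [[ϖ, r], [0, 1]] I`: the class of `g` is the class of `r ≡ g₀₁ / g₁₁`. -/
theorem iwL_inv_mul_of_cosL83 {g : GL (Fin 2) F} {π r : F} (hg : CosL val g)
    (hπ : val π = WithZero.exp (-1 : ℤ)) (hπ0 : π * 1 - r * 0 ≠ 0) (hr : val r ≤ 1)
    (hrg : val ((g : Matrix (Fin 2) (Fin 2) F) 0 1 - r * (g : Matrix (Fin 2) (Fin 2) F) 1 1) < 1) :
    IwL val ((mkGL129 π r 0 1 hπ0)⁻¹ * g) := by
  obtain ⟨h00, h01, h10, h11, hdet⟩ := hg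
  have hπne : val π ≠ 0 := by
    rw [hπ]; exact WithZero.exp_ne_zero
  have hent : ∀ i j, (((mkGL129 π r 0 1 hπ0)⁻¹ * g : GL (Fin 2) F) :
      Matrix (Fin 2) (Fin 2) F) i j
      = (!![((g : Matrix (Fin 2) (Fin 2) F) 0 0 - r * (g : Matrix (Fin 2) (Fin 2) F) 1 0) / π,
            ((g : Matrix (Fin 2) (Fin 2) F) 0 1 - r * (g : Matrix (Fin 2) (Fin 2) F) 1 1) / π;
            (g : Matrix (Fin 2) (Fin 2) F) 1 0, (g : Matrix (Fin 2) (Fin 2) F) 1 1] :
          Matrix (Fin 2) (Fin 2) F) i j := by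
    intro i j
    have hπF : π ≠ 0 := by
      intro h
      rw [h, map_zero] at hπne
      exact hπne rfl
    rw [inv_mul_apply129]
    simp only [coe_mkGL129, Matrix.adjugate_fin_two_of, Matrix.det_fin_two_of, Matrix.mul_apply,
      Fin.sum_univ_two]
    fin_cases i <;> fin_cases j <;> simp <;> field_simp <;> ring
  refine ⟨fun i j => ?_, ?_, ?_⟩
  · rw [hent]
    fin_cases i <;> fin_cases j
    · simp only [Fin.zero_eta, Fin.isValue, Matrix.of_apply, Matrix.cons_val', Matrix.cons_val_zero,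
        Matrix.cons_val_fin_one]
      exact val_div_le_one83 hπ (val_sub_lt_one83 h00 (val_mul_lt_one_right83 hr h10))
    · simp only [Fin.zero_eta, Fin.isValue, Fin.mk_one, Matrix.of_apply, Matrix.cons_val',
        Matrix.cons_val_one, Matrix.cons_val_zero, Matrix.cons_val_fin_one]
      exact val_div_le_one83 hπ hrg
    · simp only [Fin.mk_one, Fin.isValue, Fin.zero_eta, Matrix.of_apply, Matrix.cons_val',
        Matrix.cons_val_zero, Matrix.cons_val_one, Matrix.cons_val_fin_one]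
      exact h10.le
    · simp only [Fin.mk_one, Fin.isValue, Matrix.of_apply, Matrix.cons_val', Matrix.cons_val_one,
        Matrix.cons_val_fin_one]
      exact h11.le
  · rw [Matrix.GeneralLinearGroup.coe_mul, Matrix.det_mul, Matrix.coe_units_inv,
      Matrix.det_nonsing_inv, Ring.inverse_eq_inv', coe_mkGL129, Matrix.det_fin_two_of, map_mul,
      map_inv₀, hdet]
    simp only [mul_one, mul_zero, sub_zero]
    rw [hπ, inv_mul_cancel₀ WithZero.exp_ne_zero]
  · rw [hent]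
    simpa using h10

/-- The classes of `[[ϖ, r], [0, 1]]` and `[[ϖ, r'], [0, 1]]` modulo `I` are equal only if
`r ≡ r'` modulo the maximal ideal. -/
theorem val_sub_lt_of_iwL83 {π r r' : F} (hπ : val π = WithZero.exp (-1 : ℤ)) (hπ0 : π ≠ 0)
    (h : IwL val ((mkGL129 π r 0 1 (by simpa using hπ0))⁻¹
      * mkGL129 π r' 0 1 (by simpa using hπ0))) : val (r' - r) < 1 := by
  have h01 := h.1 0 1
  rw [upper_inv_mul_upper129 hπ0, map_div₀, hπ,
    div_le_iff₀ (zero_lt_iff.2 WithZero.exp_ne_zero), one_mul] at h01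
  refine lt_of_le_of_lt h01 ?_
  rw [← WithZero.exp_zero, WithZero.exp_lt_exp]
  norm_num

/-- The standard representative `[[ϖ, r], [0, 1]] = n(r) diag(ϖ, 1)`. -/
theorem mkGL_eq_mul83 {π r : F} (hπ0 : π ≠ 0) :
    mkGL129 π r 0 1 (by simpa using hπ0)
      = mkGL129 1 r 0 1 (by simp) * mkGL129 π 0 0 1 (by simpa using hπ0) * 1 := by
  apply ext_mat129
  rw [Matrix.GeneralLinearGroup.coe_mul, Matrix.GeneralLinearGroup.coe_mul, coe_mkGL129,
    coe_mkGL129, coe_mkGL129]
  ext i j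
  fin_cases i <;> fin_cases j <;> simp [Matrix.mul_apply, Fin.sum_univ_two]

theorem iwL_upper83 {r : F} (hr : val r ≤ 1) : IwL val (mkGL129 1 r 0 1 (by simp)) := by
  refine ⟨fun i j => ?_, ?_, ?_⟩
  · rw [coe_mkGL129]
    fin_cases i <;> fin_cases j <;> simp [hr]
  · rw [coe_mkGL129, Matrix.det_fin_two_of]
    simp
  · rw [coe_mkGL129]
    simp

end Fermat.Agent.LT.T7.H83

end
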